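/-
S16 (helper78), package L1-STRUCT: level-one modular forms over an arbitrary additive
subgroup of `ℂ`.

* `E4Z`, `E6Z`, `DeltaZ : PowerSeries ℤ` are the `q`-expansions of `E₄`, `E₆`, `Δ`.
* `monoZ k a = DeltaZ ^ a * E4Z ^ b * E6Z ^ c = q ^ a + O(q ^ (a + 1))` is the integral
  "Miller" monomial of weight `k` (`12 a + 4 b + 6 c = k`), `monoFun k a` the function.
* `levelOne_structure`: a level-one form `f` of weight `k` whose first `⌊k/12⌋ + 1`
  `q`-coefficients lie in an additive subgroup `M ⊆ ℂ` is a combination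
  `∑_{a ≤ k/12} c a • monoFun k a` with all `c a ∈ M`.
* `coeff_mem_of_forall_le` (Sturm over `M`): then *all* `q`-coefficients of `f` lie in `M`.
-/
import Mathlib
import Fermat.Prelude.Def_ModularCurve_X0
import Fermat.Agent.S24.H76.JBridge

set_option autoImplicit false

noncomputable section

namespace Fermat.Agent.S16.H78

open UpperHalfPlane ModularForm EisensteinSeries ModularFormClass
open scoped MatrixGroups Manifold ModularForm

local notation "Δ" => ModularForm.discriminant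

/-! ### The integral `q`-expansions of `E₄`, `E₆`, `Δ` -/

/-- The integral `q`-expansion of `E₄`. -/
def E4Z : PowerSeries ℤ := ModularCurve.eisenstein4

/-- The integral `q`-expansion of `E₆`. -/
def E6Z : PowerSeries ℤ :=
  PowerSeries.mk fun n => if n = 0 then 1 else -504 * ∑ d ∈ n.divisors, (d : ℤ) ^ 5

/-- The integral `q`-expansion of `Δ`. -/
def DeltaZ : PowerSeries ℤ := PowerSeries.X * ModularCurve.etaProd ^ 24

theorem qExpansion_E4 : qExpansion 1 E₄ = E4Z.map (Int.castRingHom ℂ) :=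
  Fermat.Agent.S24.H76.qExpansion_E4

theorem qExpansion_E6 : qExpansion 1 E₆ = E6Z.map (Int.castRingHom ℂ) := by
  ext n
  rw [E_qExpansion_coeff (by norm_num) ⟨3, rfl⟩]
  simp only [E6Z, PowerSeries.coeff_map, PowerSeries.coeff_mk]
  split_ifs with h
  · simp
  · rw [ArithmeticFunction.sigma_apply]
    norm_num [show bernoulli 6 = 1 / 42 by decide +kernel]

theorem qExpansion_discriminant : qExpansion 1 Δ = DeltaZ.map (Int.castRingHom ℂ) := by
  rw [Fermat.Agent.S24.H76.qExpansion_discriminant, DeltaZ]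
  simp

@[simp] theorem constantCoeff_E4Z : PowerSeries.constantCoeff E4Z = 1 :=
  ModularCurve.constantCoeff_eisenstein4

@[simp] theorem constantCoeff_E6Z : PowerSeries.constantCoeff E6Z = 1 := by
  rw [← PowerSeries.coeff_zero_eq_constantCoeff]
  simp [E6Z]

/-! ### Functions that are level-one modular forms -/

/-- `F` is the underlying function of a level-one modular form of weight `k`. -/
def IsL1 (k : ℤ) (F : ℍ → ℂ) : Prop := ∃ f : ModularForm 𝒮ℒ k, (f : ℍ → ℂ) = F

theorem IsL1.of_form {k : ℤ} (f : ModularForm 𝒮ℒ k) : IsL1 k f := ⟨f, rfl⟩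

theorem IsL1.cast {a b : ℤ} {F : ℍ → ℂ} (h : a = b) (hF : IsL1 a F) : IsL1 b F := h ▸ hF

theorem IsL1.analyticAt {k : ℤ} {F : ℍ → ℂ} (h : IsL1 k F) :
    AnalyticAt ℂ (cuspFunction 1 F) 0 := by
  obtain ⟨f, rfl⟩ := h
  exact ModularFormClass.analyticAt_cuspFunction_zero f one_pos one_mem_strictPeriods_SL

theorem IsL1.zero (k : ℤ) : IsL1 k 0 := ⟨0, rfl⟩

theorem IsL1.mul {a b : ℤ} {F G : ℍ → ℂ} (hF : IsL1 a F) (hG : IsL1 b G) :
    IsL1 (a + b) (F * G) := by
  obtain ⟨f, rfl⟩ := hF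
  obtain ⟨g, rfl⟩ := hG
  exact ⟨f.mul g, rfl⟩

theorem IsL1.pow {a : ℤ} {F : ℍ → ℂ} (hF : IsL1 a F) (n : ℕ) : IsL1 (n * a) (F ^ n) := by
  obtain ⟨f, rfl⟩ := hF
  exact ⟨f.pow n, ModularForm.coe_pow f n⟩

theorem IsL1.add {a : ℤ} {F G : ℍ → ℂ} (hF : IsL1 a F) (hG : IsL1 a G) : IsL1 a (F + G) := by
  obtain ⟨f, rfl⟩ := hF
  obtain ⟨g, rfl⟩ := hG
  exact ⟨f + g, rfl⟩

theorem IsL1.sub {a : ℤ} {F G : ℍ → ℂ} (hF : IsL1 a F) (hG : IsL1 a G) : IsL1 a (F - G) := by
  obtain ⟨f, rfl⟩ := hF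
  obtain ⟨g, rfl⟩ := hG
  exact ⟨f - g, rfl⟩

theorem IsL1.smul {a : ℤ} {F : ℍ → ℂ} (hF : IsL1 a F) (c : ℂ) : IsL1 a (c • F) := by
  obtain ⟨f, rfl⟩ := hF
  exact ⟨c • f, rfl⟩

theorem IsL1.sum {a : ℤ} {ι : Type*} (s : Finset ι) (F : ι → ℍ → ℂ)
    (h : ∀ i ∈ s, IsL1 a (F i)) : IsL1 a (∑ i ∈ s, F i) := by
  classical
  induction s using Finset.induction_on with
  | empty => simpa using IsL1.zero a
  | insert i s hi ih =>
    rw [Finset.sum_insert hi]
    exact (h i (Finset.mem_insert_self i s)).add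
      (ih fun j hj => h j (Finset.mem_insert_of_mem hj))

theorem isL1_E4 : IsL1 4 E₄ := ⟨E₄, rfl⟩

theorem isL1_E6 : IsL1 6 E₆ := ⟨E₆, rfl⟩

theorem isL1_discriminant : IsL1 12 Δ :=
  ⟨CuspForm.toModularFormₗ CuspForm.discriminant, rfl⟩

/-! ### `q`-expansions of such functions -/

theorem IsL1.qExpansion_mul {a b : ℤ} {F G : ℍ → ℂ} (hF : IsL1 a F) (hG : IsL1 b G) :
    qExpansion 1 (F * G) = qExpansion 1 F * qExpansion 1 G :=
  UpperHalfPlane.qExpansion_mul hF.analyticAt hG.analyticAt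

theorem IsL1.qExpansion_pow {a : ℤ} {F : ℍ → ℂ} (hF : IsL1 a F) (n : ℕ) :
    qExpansion 1 (F ^ n) = qExpansion 1 F ^ n := by
  induction n with
  | zero => simp [UpperHalfPlane.qExpansion_one]
  | succ n ih => rw [pow_succ, (hF.pow n).qExpansion_mul hF, ih, pow_succ]

theorem IsL1.qExpansion_sub {a : ℤ} {F G : ℍ → ℂ} (hF : IsL1 a F) (hG : IsL1 a G) :
    qExpansion 1 (F - G) = qExpansion 1 F - qExpansion 1 G :=
  UpperHalfPlane.qExpansion_sub hF.analyticAt hG.analyticAt

theorem IsL1.qExpansion_add {a : ℤ} {F G : ℍ → ℂ} (hF : IsL1 a F) (hG : IsL1 a G) :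
    qExpansion 1 (F + G) = qExpansion 1 F + qExpansion 1 G :=
  UpperHalfPlane.qExpansion_add hF.analyticAt hG.analyticAt

theorem IsL1.qExpansion_smul {a : ℤ} {F : ℍ → ℂ} (hF : IsL1 a F) (c : ℂ) :
    qExpansion 1 (c • F) = c • qExpansion 1 F :=
  UpperHalfPlane.qExpansion_smul hF.analyticAt c

theorem IsL1.qExpansion_sum {a : ℤ} {ι : Type*} (s : Finset ι) (F : ι → ℍ → ℂ)
    (h : ∀ i ∈ s, IsL1 a (F i)) :
    qExpansion 1 (∑ i ∈ s, F i) = ∑ i ∈ s, qExpansion 1 (F i) := by
  classical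
  induction s using Finset.induction_on with
  | empty => simp [UpperHalfPlane.qExpansion_zero]
  | insert i s hi ih =>
    have hs : ∀ j ∈ s, IsL1 a (F j) := fun j hj => h j (Finset.mem_insert_of_mem hj)
    rw [Finset.sum_insert hi, Finset.sum_insert hi,
      (h i (Finset.mem_insert_self i s)).qExpansion_add (IsL1.sum s F hs), ih hs]

/-- Sturm bound for level-one forms, function form. -/
theorem IsL1.eq_zero_of_coeff {k : ℕ} {G : ℍ → ℂ} (hG : IsL1 k G)
    (h : ∀ n ≤ k / 12, (qExpansion 1 G).coeff n = 0) : G = 0 := by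
  obtain ⟨g, rfl⟩ := hG
  have h1 : ((k / 12 + 1 : ℕ) : ℕ∞) ≤ (qExpansion 1 g).order :=
    PowerSeries.nat_le_order _ _ fun i hi => h i (by omega)
  have h2 : ((k / 12 : ℕ) : ℕ∞) < (qExpansion 1 g).order :=
    lt_of_lt_of_le (by exact_mod_cast Nat.lt_succ_self _) h1
  rw [sturm_bound_levelOne_nat h2]
  rfl

/-- Sturm bound in weights `k ≡ 2 (mod 12)`: order `≥ k / 12` suffices. -/
theorem sturm_two {k : ℕ} (hk : k % 12 = 2) {f : ModularForm 𝒮ℒ (k : ℤ)}
    (h : ((k / 12 : ℕ) : ℕ∞) ≤ (qExpansion 1 f).order) : f = 0 := by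
  induction k using Nat.strong_induction_on with | _ k ih =>
  rcases lt_or_ge k 12 with hk12 | hk12
  · obtain rfl : k = 2 := by omega
    exact rank_zero_iff_forall_zero.mp levelOne_weight_two_rank_zero f
  · have h0 : (qExpansion 1 f).coeff 0 = 0 :=
      PowerSeries.coeff_of_lt_order _
        (lt_of_lt_of_le (by exact_mod_cast (show 0 < k / 12 by omega)) h)
    suffices CuspForm.discriminantEquiv (toCuspForm f h0) = 0 by
      simpa [CuspForm.discriminantEquiv.map_eq_zero_iff, DFunLike.ext_iff]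
    rw [← mcast_eq_zero_iff (b := ↑(k - 12)) (by lia) rfl]
    refine ih (k - 12) (by lia) (by omega) ?_
    have hsucc : k / 12 = (k - 12) / 12 + 1 := by lia
    rw [qExpansion_eq_qExpansion_discriminant_mul f h0, PowerSeries.order_mul,
      discriminant_qExpansion_order, add_comm, hsucc, Nat.cast_add, Nat.cast_one] at h
    exact (ENat.add_le_add_iff_right (ENat.natCast_ne_top 1)).mp h

theorem IsL1.eq_zero_of_coeff_two {k : ℕ} (hk : k % 12 = 2) {G : ℍ → ℂ} (hG : IsL1 k G)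
    (h : ∀ n < k / 12, (qExpansion 1 G).coeff n = 0) : G = 0 := by
  obtain ⟨g, rfl⟩ := hG
  have h1 : ((k / 12 : ℕ) : ℕ∞) ≤ (qExpansion 1 g).order :=
    PowerSeries.nat_le_order _ _ fun i hi => h i hi
  rw [sturm_two hk h1]
  rfl

/-! ### The integral monomials -/

/-- Exponent of `E₆` in the monomial of weight `m`. -/
def e6 (m : ℕ) : ℕ := (m / 2) % 2

/-- Exponent of `E₄` in the monomial of weight `m`. -/
def e4 (m : ℕ) : ℕ := (m - 6 * e6 m) / 4

theorem four_mul_e4_add {m : ℕ} (hm : Even m) (h2 : m ≠ 2) : 4 * e4 m + 6 * e6 m = m := by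
  obtain ⟨r, rfl⟩ := hm
  unfold e4 e6
  omega

/-- The integral monomial `Δ^a E₄^b E₆^c` of weight `k`, as a power series. -/
def monoZ (k a : ℕ) : PowerSeries ℤ :=
  DeltaZ ^ a * E4Z ^ e4 (k - 12 * a) * E6Z ^ e6 (k - 12 * a)

/-- The monomial `Δ^a E₄^b E₆^c` of weight `k`, as a function. -/
def monoFun (k a : ℕ) : ℍ → ℂ :=
  fun τ => Δ τ ^ a * E₄ τ ^ e4 (k - 12 * a) * E₆ τ ^ e6 (k - 12 * a)

theorem monoFun_eq (k a : ℕ) :
    monoFun k a = (Δ : ℍ → ℂ) ^ a * (E₄ : ℍ → ℂ) ^ e4 (k - 12 * a) *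
      (E₆ : ℍ → ℂ) ^ e6 (k - 12 * a) := rfl

theorem isL1_monoFun_aux (k a : ℕ) :
    IsL1 (a * 12 + e4 (k - 12 * a) * 4 + e6 (k - 12 * a) * 6) (monoFun k a) :=
  ((isL1_discriminant.pow a).mul (isL1_E4.pow _)).mul (isL1_E6.pow _)

theorem isL1_monoFun {k a : ℕ} (hk : Even k) (ha : 12 * a ≤ k) (h2 : k - 12 * a ≠ 2) :
    IsL1 k (monoFun k a) := by
  refine (isL1_monoFun_aux k a).cast ?_
  have hm : Even (k - 12 * a) := by
    obtain ⟨r, rfl⟩ := hk
    exact ⟨r - 6 * a, by omega⟩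
  have := four_mul_e4_add hm h2
  have h3 : a * 12 + e4 (k - 12 * a) * 4 + e6 (k - 12 * a) * 6 = k := by omega
  exact_mod_cast h3

theorem qExpansion_monoFun (k a : ℕ) :
    qExpansion 1 (monoFun k a) = (monoZ k a).map (Int.castRingHom ℂ) := by
  rw [monoFun_eq, ((isL1_discriminant.pow a).mul (isL1_E4.pow _)).qExpansion_mul (isL1_E6.pow _),
    (isL1_discriminant.pow a).qExpansion_mul (isL1_E4.pow _), isL1_discriminant.qExpansion_pow,
    isL1_E4.qExpansion_pow, isL1_E6.qExpansion_pow, qExpansion_discriminant, qExpansion_E4,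
    qExpansion_E6, monoZ, map_mul, map_mul, map_pow, map_pow, map_pow]

theorem monoZ_eq (k a : ℕ) :
    monoZ k a = PowerSeries.X ^ a *
      (ModularCurve.etaProd ^ (24 * a) * E4Z ^ e4 (k - 12 * a) * E6Z ^ e6 (k - 12 * a)) := by
  rw [monoZ, DeltaZ, mul_pow, ← pow_mul]
  ring

theorem coeff_monoZ_of_lt {k a n : ℕ} (h : n < a) : (monoZ k a).coeff n = 0 := by
  rw [monoZ_eq, PowerSeries.coeff_X_pow_mul', if_neg (by omega)]

theorem coeff_monoZ_self (k a : ℕ) : (monoZ k a).coeff a = 1 := by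
  rw [monoZ_eq, PowerSeries.coeff_X_pow_mul', if_pos le_rfl, Nat.sub_self,
    PowerSeries.coeff_zero_eq_constantCoeff]
  simp [ModularCurve.constantCoeff_etaProd]

/-! ### The triangular coefficient recursion -/

/-- The coefficients of `φ` in the triangular family `monoZ k a`. -/
def coeffC (k : ℕ) (φ : PowerSeries ℂ) (a : ℕ) : ℂ :=
  if k - 12 * a = 2 then 0
  else φ.coeff a - ∑ a' : Fin a, coeffC k φ a' * (((monoZ k a').coeff a : ℤ) : ℂ)
termination_by a
decreasing_by exact a'.2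

theorem coeffC_of_bad {k : ℕ} (φ : PowerSeries ℂ) {a : ℕ} (h : k - 12 * a = 2) :
    coeffC k φ a = 0 := by
  rw [coeffC, if_pos h]

theorem coeffC_of_good {k : ℕ} (φ : PowerSeries ℂ) {a : ℕ} (h : k - 12 * a ≠ 2) :
    coeffC k φ a = φ.coeff a -
      ∑ a' ∈ Finset.range a, coeffC k φ a' * (((monoZ k a').coeff a : ℤ) : ℂ) := by
  rw [coeffC, if_neg h, Fin.sum_univ_eq_sum_range
    (fun a' => coeffC k φ a' * (((monoZ k a').coeff a : ℤ) : ℂ))]

theorem coeffC_mem (M : AddSubgroup ℂ) {k : ℕ} (φ : PowerSeries ℂ) {d : ℕ}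
    (hφ : ∀ n ≤ d, φ.coeff n ∈ M) : ∀ a ≤ d, coeffC k φ a ∈ M := by
  intro a
  induction a using Nat.strong_induction_on with | _ a ih =>
  intro ha
  by_cases h : k - 12 * a = 2
  · rw [coeffC_of_bad φ h]
    exact M.zero_mem
  · rw [coeffC_of_good φ h]
    refine M.sub_mem (hφ a ha) (M.sum_mem fun a' ha' => ?_)
    have ha'' : a' < a := Finset.mem_range.mp ha'
    have := M.zsmul_mem (ih a' ha'' (by omega)) ((monoZ k a').coeff a)
    simpa [mul_comm] using this

/-- The `n`-th coefficient of the combination `∑_{a ≤ d} coeffC a • monoZ k a` is the `n`-th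
coefficient of `φ`, for every good `n ≤ d`. -/
theorem coeff_sum_coeffC {k : ℕ} (φ : PowerSeries ℂ) {d n : ℕ} (hn : n ≤ d)
    (h : k - 12 * n ≠ 2) :
    ∑ a ∈ Finset.range (d + 1), coeffC k φ a * (((monoZ k a).coeff n : ℤ) : ℂ) = φ.coeff n := by
  have h1 : ∑ a ∈ Finset.range (d + 1), coeffC k φ a * (((monoZ k a).coeff n : ℤ) : ℂ) =
      ∑ a ∈ Finset.range (n + 1), coeffC k φ a * (((monoZ k a).coeff n : ℤ) : ℂ) := by
    symm
    refine Finset.sum_subset (Finset.range_mono (by omega)) fun a _ ha => ?_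
    have hna : n < a := by
      by_contra hcon
      exact ha (Finset.mem_range.mpr (by omega))
    rw [coeff_monoZ_of_lt hna]
    simp
  rw [h1, Finset.sum_range_succ, coeff_monoZ_self, coeffC_of_good φ h]
  simp

/-! ### The structure theorem -/

/-- A level-one form of even weight `k` is the combination of the monomials `monoFun k a`,
`a ≤ k / 12`, with the coefficients produced by the triangular recursion. -/
theorem levelOne_eq_sum {k : ℕ} (hk : Even k) (f : ModularForm 𝒮ℒ k) :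
    (f : ℍ → ℂ) =
        ∑ a ∈ Finset.range (k / 12 + 1), coeffC k (qExpansion 1 f) a • monoFun k a ∧
      qExpansion 1 f = ∑ a ∈ Finset.range (k / 12 + 1),
        coeffC k (qExpansion 1 f) a • (monoZ k a).map (Int.castRingHom ℂ) := by
  have hterm : ∀ a ∈ Finset.range (k / 12 + 1),
      IsL1 k (coeffC k (qExpansion 1 f) a • monoFun k a) := by
    intro a ha
    by_cases h : k - 12 * a = 2
    · rw [coeffC_of_bad _ h, zero_smul]
      exact IsL1.zero k
    · have ha' := Finset.mem_range.mp ha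
      exact (isL1_monoFun hk (by omega) h).smul _
  have hS := IsL1.sum _ _ hterm
  have hG := (IsL1.of_form f).sub hS
  have hqS : qExpansion 1 (∑ a ∈ Finset.range (k / 12 + 1),
        coeffC k (qExpansion 1 f) a • monoFun k a) =
      ∑ a ∈ Finset.range (k / 12 + 1),
        coeffC k (qExpansion 1 f) a • (monoZ k a).map (Int.castRingHom ℂ) := by
    rw [IsL1.qExpansion_sum _ _ hterm]
    refine Finset.sum_congr rfl fun a _ => ?_
    rw [(isL1_monoFun_aux k a).qExpansion_smul, qExpansion_monoFun]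
  have hq := (IsL1.of_form f).qExpansion_sub hS
  rw [hqS] at hq
  have hcoeff : ∀ n ≤ k / 12, k - 12 * n ≠ 2 →
      (qExpansion 1 ((f : ℍ → ℂ) - ∑ a ∈ Finset.range (k / 12 + 1),
        coeffC k (qExpansion 1 f) a • monoFun k a)).coeff n = 0 := by
    intro n hn h
    rw [hq, map_sub, map_sum]
    simp only [PowerSeries.coeff_smul, PowerSeries.coeff_map, smul_eq_mul, eq_intCast]
    rw [coeff_sum_coeffC _ hn h, sub_self]
  have hzero : (f : ℍ → ℂ) - ∑ a ∈ Finset.range (k / 12 + 1),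
      coeffC k (qExpansion 1 f) a • monoFun k a = 0 := by
    by_cases h2 : k % 12 = 2
    · exact hG.eq_zero_of_coeff_two h2 fun n hn => hcoeff n hn.le (by omega)
    · exact hG.eq_zero_of_coeff fun n hn => hcoeff n hn (by omega)
  have hf := sub_eq_zero.mp hzero
  refine ⟨hf, ?_⟩
  rw [← hqS, ← hf]

/-- **Structure of level-one forms over an additive subgroup `M ⊆ ℂ`.**  If the first
`⌊k/12⌋ + 1` `q`-coefficients of a level-one form `f` of weight `k` lie in `M`, then `f` is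
a combination of the integral monomials `Δ^a E₄^b E₆^c` (`a ≤ k / 12`) with coefficients
in `M`. -/
theorem levelOne_structure (M : AddSubgroup ℂ) {k : ℕ} (f : ModularForm 𝒮ℒ k)
    (hf : ∀ n ≤ k / 12, (qExpansion 1 f).coeff n ∈ M) :
    ∃ c : ℕ → ℂ, (∀ a, c a ∈ M) ∧ (∀ a, k - 12 * a = 2 → c a = 0) ∧
      (∀ τ, f τ = ∑ a ∈ Finset.range (k / 12 + 1), c a * monoFun k a τ) ∧
      qExpansion 1 f = ∑ a ∈ Finset.range (k / 12 + 1),
        PowerSeries.C (c a) * (monoZ k a).map (Int.castRingHom ℂ) := by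
  rcases Nat.even_or_odd k with hk | hk
  · obtain ⟨h1, h2⟩ := levelOne_eq_sum hk f
    refine ⟨fun a => if a ≤ k / 12 then coeffC k (qExpansion 1 f) a else 0, ?_, ?_, ?_, ?_⟩
    · intro a
      dsimp only
      split_ifs with h
      · exact coeffC_mem M _ hf a h
      · exact M.zero_mem
    · intro a ha
      dsimp only
      split_ifs
      · exact coeffC_of_bad _ ha
      · rfl
    · intro τ
      have := congrFun h1 τ
      rw [this, Finset.sum_apply]
      refine Finset.sum_congr rfl fun a ha => ?_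
      have ha' := Finset.mem_range.mp ha
      dsimp only
      rw [if_pos (by omega)]
      rfl
    · refine h2.trans ?_
      refine Finset.sum_congr rfl fun a ha => ?_
      have ha' := Finset.mem_range.mp ha
      dsimp only
      rw [if_pos (by omega), PowerSeries.smul_eq_C_mul]
  · have h0 : f = 0 := levelOne_odd_weight_eq_zero (by exact_mod_cast hk) f
    refine ⟨fun _ => 0, fun _ => M.zero_mem, fun _ _ => rfl, ?_, ?_⟩
    · intro τ
      simp [h0]
    · simp [h0, UpperHalfPlane.qExpansion_zero]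

/-- **Sturm bound over an additive subgroup.**  If the first `⌊k/12⌋ + 1` `q`-coefficients
of a level-one form of weight `k` lie in an additive subgroup `M ⊆ ℂ`, then all of them do. -/
theorem coeff_mem_of_forall_le (M : AddSubgroup ℂ) {k : ℕ} (f : ModularForm 𝒮ℒ k)
    (hf : ∀ n ≤ k / 12, (qExpansion 1 f).coeff n ∈ M) (n : ℕ) :
    (qExpansion 1 f).coeff n ∈ M := by
  obtain ⟨c, hc, -, -, hq⟩ := levelOne_structure M f hf
  rw [hq, map_sum]
  refine M.sum_mem fun a _ => ?_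
  rw [PowerSeries.coeff_C_mul, PowerSeries.coeff_map]
  have := M.zsmul_mem (hc a) ((monoZ k a).coeff n)
  simpa [mul_comm] using this

end Fermat.Agent.S16.H78
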